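/-
PROJECT C (S55), Layer A, slice A3a (helper23).

Concrete cocycle / coboundary interface to Mathlib's `groupCohomology` (defined there as the
abstract homology of the complex of inhomogeneous cochains), plus a general lemma for descending
bilinear maps along two surjections.  Mathlib-only.

* `Zc A n`  : concrete `n`-cocycles  = `ker (d A n)` as a submodule of `(Fin n → G) → A`;
* `Bc A n`  : concrete `n`-coboundaries (`⊥` for `n = 0`, `range (d A m)` for `n = m + 1`);
* `toH A n : Zc A n →ₗ[k] groupCohomology A n` : the class map; `toH_surjective`,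
  `toH_eq_zero_iff : toH A n z = 0 ↔ z.1 ∈ Bc A n`;
* `descBilin`, `descBilin_apply`.
-/
import Mathlib

namespace Fermat.Agent.CFT.A3

universe u

open CategoryTheory groupCohomology

section desc

variable {k : Type*} [CommRing k] {Z₁ Z₂ H₁ H₂ H : Type*}
  [AddCommGroup Z₁] [Module k Z₁] [AddCommGroup Z₂] [Module k Z₂]
  [AddCommGroup H₁] [Module k H₁] [AddCommGroup H₂] [Module k H₂]
  [AddCommGroup H] [Module k H]

/-- Descend a bilinear map along two surjections. -/
noncomputable def descBilin (π₁ : Z₁ →ₗ[k] H₁) (π₂ : Z₂ →ₗ[k] H₂)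
    (h₁ : Function.Surjective π₁) (h₂ : Function.Surjective π₂)
    (β : Z₁ →ₗ[k] Z₂ →ₗ[k] H)
    (hβ₁ : ∀ z₁, π₁ z₁ = 0 → ∀ z₂, β z₁ z₂ = 0)
    (hβ₂ : ∀ z₁ z₂, π₂ z₂ = 0 → β z₁ z₂ = 0) : H₁ →ₗ[k] H₂ →ₗ[k] H :=
  let e₁ : (Z₁ ⧸ LinearMap.ker π₁) ≃ₗ[k] H₁ := π₁.quotKerEquivOfSurjective h₁
  let e₂ : (Z₂ ⧸ LinearMap.ker π₂) ≃ₗ[k] H₂ := π₂.quotKerEquivOfSurjective h₂
  let β₁ : Z₁ →ₗ[k] (Z₂ ⧸ LinearMap.ker π₂) →ₗ[k] H :=
    { toFun := fun z₁ => (LinearMap.ker π₂).liftQ (β z₁)
        (fun z₂ hz₂ => LinearMap.mem_ker.2 (hβ₂ z₁ z₂ (LinearMap.mem_ker.1 hz₂)))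
      map_add' := fun a b => by
        apply Submodule.linearMap_qext; ext z
        simp only [LinearMap.coe_comp, Function.comp_apply, Submodule.mkQ_apply,
          Submodule.liftQ_apply, map_add, LinearMap.add_apply]
      map_smul' := fun c a => by
        apply Submodule.linearMap_qext; ext z
        simp only [LinearMap.coe_comp, Function.comp_apply, Submodule.mkQ_apply,
          Submodule.liftQ_apply, map_smul, LinearMap.smul_apply, RingHom.id_apply] }
  let β₂ : (Z₁ ⧸ LinearMap.ker π₁) →ₗ[k] (Z₂ ⧸ LinearMap.ker π₂) →ₗ[k] H :=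
    (LinearMap.ker π₁).liftQ β₁ (fun z₁ hz₁ => by
      rw [LinearMap.mem_ker] at hz₁ ⊢
      apply Submodule.linearMap_qext; ext z
      simp only [LinearMap.coe_comp, Function.comp_apply, Submodule.mkQ_apply, β₁,
        LinearMap.coe_mk, AddHom.coe_mk, Submodule.liftQ_apply, LinearMap.zero_apply]
      exact hβ₁ z₁ hz₁ z)
  (β₂.comp e₁.symm.toLinearMap).compl₂ e₂.symm.toLinearMap

lemma descBilin_apply (π₁ : Z₁ →ₗ[k] H₁) (π₂ : Z₂ →ₗ[k] H₂)
    (h₁ : Function.Surjective π₁) (h₂ : Function.Surjective π₂)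
    (β : Z₁ →ₗ[k] Z₂ →ₗ[k] H)
    (hβ₁ : ∀ z₁, π₁ z₁ = 0 → ∀ z₂, β z₁ z₂ = 0)
    (hβ₂ : ∀ z₁ z₂, π₂ z₂ = 0 → β z₁ z₂ = 0) (z₁ : Z₁) (z₂ : Z₂) :
    descBilin π₁ π₂ h₁ h₂ β hβ₁ hβ₂ (π₁ z₁) (π₂ z₂) = β z₁ z₂ := by
  have e1 : (π₁.quotKerEquivOfSurjective h₁).symm (π₁ z₁) = Submodule.Quotient.mk z₁ := by
    rw [LinearEquiv.symm_apply_eq]; rfl
  have e2 : (π₂.quotKerEquivOfSurjective h₂).symm (π₂ z₂) = Submodule.Quotient.mk z₂ := by
    rw [LinearEquiv.symm_apply_eq]; rfl
  simp only [descBilin, LinearMap.compl₂_apply, LinearMap.coe_comp, LinearEquiv.coe_coe,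
    Function.comp_apply, e1, e2]
  rfl

end desc

variable {k G : Type u} [CommRing k] [Group G]

section interface

variable (A : Rep.{u} k G) (n : ℕ)

/-- concrete `n`-cocycles: the kernel of the inhomogeneous differential -/
def Zc : Submodule k ((Fin n → G) → A.V) := LinearMap.ker (inhomogeneousCochains.d A n).hom

/-- concrete `n`-coboundaries -/
def Bc (A : Rep.{u} k G) : (n : ℕ) → Submodule k ((Fin n → G) → A.V)
  | 0 => ⊥
  | (m + 1) => LinearMap.range (inhomogeneousCochains.d A m).hom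

lemma mem_Zc {f : (Fin n → G) → A.V} :
    f ∈ Zc A n ↔ (inhomogeneousCochains.d A n).hom f = 0 := LinearMap.mem_ker

lemma mem_Bc_succ {m : ℕ} {f : (Fin (m + 1) → G) → A.V} :
    f ∈ Bc A (m + 1) ↔ ∃ y, (inhomogeneousCochains.d A m).hom y = f := LinearMap.mem_range

lemma mem_Bc_zero {f : (Fin 0 → G) → A.V} : f ∈ Bc A 0 ↔ f = 0 := Submodule.mem_bot k

lemma Bc_le_Zc : Bc A n ≤ Zc A n := by
  cases n with
  | zero => intro f hf; rw [mem_Bc_zero] at hf; subst hf; exact Submodule.zero_mem _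
  | succ m =>
    intro f hf
    obtain ⟨y, rfl⟩ := (mem_Bc_succ A).1 hf
    rw [mem_Zc]
    have := inhomogeneousCochains.d_comp_d (A := A) (n := m)
    exact congr($this y)

lemma subtype_comp_d_eq_zero :
    ModuleCat.ofHom (Zc A n).subtype ≫ (inhomogeneousCochains A).d n (n + 1) = 0 := by
  rw [inhomogeneousCochains.d_def]
  exact ModuleCat.hom_ext (LinearMap.ext fun z => (mem_Zc A n).1 z.2)

/-- the (abstract) cocycle attached to a concrete cocycle -/
noncomputable def mkZ : ModuleCat.of k (Zc A n) ⟶ cocycles A n :=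
  (inhomogeneousCochains A).liftCycles (ModuleCat.ofHom (Zc A n).subtype) (n + 1) (by simp)
    (subtype_comp_d_eq_zero A n)

lemma iCocycles_mkZ (z : Zc A n) : iCocycles A n (mkZ A n z) = z.1 := by
  have := (inhomogeneousCochains A).liftCycles_i (ModuleCat.ofHom (Zc A n).subtype) (n + 1)
    (by simp) (subtype_comp_d_eq_zero A n)
  exact congr($this z)

lemma iCocycles_injective : Function.Injective (iCocycles A n) :=
  (ModuleCat.mono_iff_injective _).1 inferInstance

lemma iCocycles_mem_Zc (x : cocycles A n) : (iCocycles A n x : (Fin n → G) → A.V) ∈ Zc A n := by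
  rw [mem_Zc]
  have := (inhomogeneousCochains A).iCycles_d n (n + 1)
  rw [inhomogeneousCochains.d_def] at this
  exact congr($this x)

lemma mkZ_surjective : Function.Surjective (mkZ A n) := fun x =>
  ⟨⟨iCocycles A n x, iCocycles_mem_Zc A n x⟩, iCocycles_injective A n (iCocycles_mkZ A n _)⟩

/-- the cohomology class of a concrete cocycle -/
noncomputable def toH : Zc A n →ₗ[k] groupCohomology A n := (mkZ A n ≫ π A n).hom

lemma toH_apply (z : Zc A n) : toH A n z = π A n (mkZ A n z) := rfl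

lemma toH_surjective : Function.Surjective (toH A n) := by
  intro x
  induction x using groupCohomology_induction_on with
  | h y =>
    obtain ⟨z, rfl⟩ := mkZ_surjective A n y
    exact ⟨z, rfl⟩

lemma toH_eq_zero_of_mem_Bc (z : Zc A n) (hz : z.1 ∈ Bc A n) : toH A n z = 0 := by
  cases n with
  | zero =>
    rw [mem_Bc_zero] at hz
    have : z = 0 := Subtype.ext hz
    rw [this, map_zero]
  | succ m =>
    obtain ⟨y, hy⟩ := (mem_Bc_succ A).1 hz
    have h1 : mkZ A (m + 1) z = (inhomogeneousCochains A).toCycles m (m + 1) y := by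
      apply iCocycles_injective
      rw [iCocycles_mkZ, ← hy]
      have := (inhomogeneousCochains A).toCycles_i m (m + 1)
      rw [inhomogeneousCochains.d_def] at this
      exact (congr($this y)).symm
    rw [toH_apply, h1]
    have := (inhomogeneousCochains A).toCycles_comp_homologyπ m (m + 1)
    exact congr($this y)

lemma exists_toCycles_eq (i : ℕ) (hi : (ComplexShape.up ℕ).prev n = i) (z : Zc A n)
    (hz : toH A n z = 0) :
    ∃ y, (inhomogeneousCochains A).d i n y = z.1 := by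
  have hex : (ShortComplex.mk ((inhomogeneousCochains A).toCycles i n)
      ((inhomogeneousCochains A).homologyπ n)
      ((inhomogeneousCochains A).toCycles_comp_homologyπ i n)).Exact :=
    ShortComplex.exact_of_g_is_cokernel _ ((inhomogeneousCochains A).homologyIsCokernel i n hi)
  obtain ⟨y, hy⟩ := (ShortComplex.moduleCat_exact_iff _).1 hex (mkZ A n z) hz
  refine ⟨y, ?_⟩
  rw [← iCocycles_mkZ, ← hy]
  exact (congr($((inhomogeneousCochains A).toCycles_i i n) y)).symm

lemma mem_Bc_of_toH_eq_zero (z : Zc A n) (hz : toH A n z = 0) : z.1 ∈ Bc A n := by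
  cases n with
  | zero =>
    obtain ⟨y, hy⟩ := exists_toCycles_eq A 0 _ rfl z hz
    rw [mem_Bc_zero, ← hy, (inhomogeneousCochains A).shape _ _ (by simp)]
    rfl
  | succ m =>
    obtain ⟨y, hy⟩ := exists_toCycles_eq A (m + 1) m (by simp) z hz
    rw [inhomogeneousCochains.d_def] at hy
    exact (mem_Bc_succ A).2 ⟨y, hy⟩

lemma toH_eq_zero_iff (z : Zc A n) : toH A n z = 0 ↔ z.1 ∈ Bc A n :=
  ⟨mem_Bc_of_toH_eq_zero A n z, toH_eq_zero_of_mem_Bc A n z⟩

end interface


end Fermat.Agent.CFT.A3
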