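/-
PROJECT C (S55), slice A3a' (iv) (helper23): the cup product of level-constant cochains
(helper8's home model `Fermat.Agent.CFT.LC`) is level-constant, and the induced cup product on
level-constant cohomology

`cupLC φ h : LC.H 𝒰 A p →ₗ[k] LC.H 𝒰 B q →ₗ[k] LC.H 𝒰 C n`   (`h : p + q = n`)

with `cupLC_Hπ : cupLC φ h (Hπ a) (Hπ b) = Hπ ⟨⟨cupFun φ h a b, _⟩, _⟩`.
Built on helper26's `Fermat.Agent.CFT.Cup.cupFun` / `dF_cupFun`.  Mathlib-only otherwise.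
-/
import Fermat.Agent.CFT.Cup.Cochain
import Fermat.Agent.CFT.LC.Cohomology
import Fermat.Agent.CFT.A3.Cocycles

noncomputable section

universe u

namespace Fermat.Agent.CFT.A3

open CategoryTheory Fermat.Agent.CFT.Cup Fermat.Agent.CFT.LC

variable {k G : Type u} [CommRing k] [Group G] {A B C : Rep.{u} k G}

/-! ### Partial products of `x * u` with `u` in a normal subgroup -/

lemma partialProd_mul_mem {U : Subgroup G} [U.Normal] {n : ℕ} (x u : Fin n → G)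
    (hu : ∀ i, u i ∈ U) (i : Fin (n + 1)) :
    ∃ u' ∈ U, Fin.partialProd (x * u) i = Fin.partialProd x i * u' := by
  induction i using Fin.induction with
  | zero => exact ⟨1, U.one_mem, by simp⟩
  | succ i ih =>
    obtain ⟨u', hu', h⟩ := ih
    refine ⟨(x i)⁻¹ * u' * x i * u i, U.mul_mem ?_ (hu i), ?_⟩
    · have := Subgroup.Normal.conj_mem (inferInstance : U.Normal) _ hu' (x i)⁻¹
      simpa using this
    · rw [Fin.partialProd_succ, Fin.partialProd_succ, h, Pi.mul_apply]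
      group

/-! ### Level constancy of the cup product -/

section lc

variable (φ : Pairing A B C) {p q n : ℕ} (h : p + q = n)

lemma tupleFst_mul (x u : Fin n → G) : tupleFst h (x * u) = tupleFst h x * tupleFst h u := rfl

lemma tupleSnd_mul (x u : Fin n → G) : tupleSnd h (x * u) = tupleSnd h x * tupleSnd h u := rfl

lemma isLCAt_cupFun {U : Subgroup G} [U.Normal] {a : (Fin p → G) → A.V}
    {b : (Fin q → G) → B.V} (ha : IsLCAt U A a) (hb : IsLCAt U B b) :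
    IsLCAt U C (cupFun φ h a b) := by
  refine ⟨fun x u hu => ?_, fun x s hs => ?_⟩
  · rw [cupFun_apply, cupFun_apply, tupleFst_mul, tupleSnd_mul,
      ha.1 (tupleFst h x) (tupleFst h u) (fun i => hu _),
      hb.1 (tupleSnd h x) (tupleSnd h u) (fun i => hu _)]
    obtain ⟨u', hu', hP⟩ := partialProd_mul_mem x u hu ⟨p, by omega⟩
    unfold prodFst
    rw [hP, map_mul, Module.End.mul_apply, hb.2 _ _ hu']
  · rw [cupFun_apply, Pairing.ρ_apply, ha.2 _ _ hs]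
    congr 1
    set P := prodFst p (by omega) x
    have h1 : P⁻¹ * s * P ∈ U := by
      have := Subgroup.Normal.conj_mem (inferInstance : U.Normal) _ hs P⁻¹
      simpa using this
    have h2 : s * P = P * (P⁻¹ * s * P) := by group
    rw [← Module.End.mul_apply, ← map_mul, h2, map_mul, Module.End.mul_apply, hb.2 _ _ h1]

lemma isLC_cupFun {𝒰 : Levels G} {a : (Fin p → G) → A.V} {b : (Fin q → G) → B.V}
    (ha : IsLC 𝒰 A a) (hb : IsLC 𝒰 B b) : IsLC 𝒰 C (cupFun φ h a b) := by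
  obtain ⟨U, hU, ha⟩ := ha
  obtain ⟨V, hV, hb⟩ := hb
  obtain ⟨W, hW, hWUV⟩ := 𝒰.directed U hU V hV
  have := 𝒰.normal W hW
  exact ⟨W, hW, isLCAt_cupFun φ h (ha.mono (hWUV.trans inf_le_left))
    (hb.mono (hWUV.trans inf_le_right))⟩

end lc

/-! ### Cup product on level-constant cochains, cocycles and cohomology -/

section cohomology

variable (𝒰 : Levels G) (φ : Pairing A B C) {p q n : ℕ} (h : p + q = n)

/-- The cup product on level-constant cochains. -/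
def cupLCCochain : cochains 𝒰 A p →ₗ[k] cochains 𝒰 B q →ₗ[k] cochains 𝒰 C n :=
  LinearMap.mk₂ k (fun a b => ⟨cupFun φ h a.1 b.1, isLC_cupFun φ h a.2 b.2⟩)
    (fun a a' b => Subtype.ext (by
      change cupCochain φ h (a.1 + a'.1) b.1 = cupCochain φ h a.1 b.1 + cupCochain φ h a'.1 b.1
      rw [map_add, LinearMap.add_apply]))
    (fun c a b => Subtype.ext (by
      change cupCochain φ h (c • a.1) b.1 = c • cupCochain φ h a.1 b.1
      rw [map_smul, LinearMap.smul_apply]))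
    (fun a b b' => Subtype.ext (by
      change cupCochain φ h a.1 (b.1 + b'.1) = cupCochain φ h a.1 b.1 + cupCochain φ h a.1 b'.1
      rw [map_add]))
    (fun c a b => Subtype.ext (by
      change cupCochain φ h a.1 (c • b.1) = c • cupCochain φ h a.1 b.1
      rw [map_smul]))

@[simp] lemma cupLCCochain_coe (a : cochains 𝒰 A p) (b : cochains 𝒰 B q) :
    ((cupLCCochain 𝒰 φ h a b : cochains 𝒰 C n) : (Fin n → G) → C.V) = cupFun φ h a.1 b.1 := rfl

/-- Leibniz rule on level-constant cochains. -/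
lemma dLC_cupLCCochain (a : cochains 𝒰 A p) (b : cochains 𝒰 B q) :
    dLC 𝒰 C n (cupLCCochain 𝒰 φ h a b) =
      cupLCCochain 𝒰 φ (show (p + 1) + q = n + 1 by omega) (dLC 𝒰 A p a) b +
        (-1 : k) ^ p • cupLCCochain 𝒰 φ (show p + (q + 1) = n + 1 by omega) a (dLC 𝒰 B q b) :=
  Subtype.ext (dF_cupFun φ h a.1 b.1)

lemma cupLCCochain_mem_cocyclesLC {a : cochains 𝒰 A p} {b : cochains 𝒰 B q}
    (ha : a ∈ cocyclesLC 𝒰 A p) (hb : b ∈ cocyclesLC 𝒰 B q) :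
    cupLCCochain 𝒰 φ h a b ∈ cocyclesLC 𝒰 C n := by
  have ha' : dLC 𝒰 A p a = 0 := ha
  have hb' : dLC 𝒰 B q b = 0 := hb
  change dLC 𝒰 C n _ = 0
  rw [dLC_cupLCCochain, ha', hb', map_zero, map_zero, LinearMap.zero_apply, smul_zero, add_zero]

/-- The cup product on level-constant cocycles. -/
def cupLCZ : cocyclesLC 𝒰 A p →ₗ[k] cocyclesLC 𝒰 B q →ₗ[k] cocyclesLC 𝒰 C n :=
  LinearMap.mk₂ k
    (fun a b => ⟨cupLCCochain 𝒰 φ h a.1 b.1, cupLCCochain_mem_cocyclesLC 𝒰 φ h a.2 b.2⟩)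
    (fun a a' b => Subtype.ext (by
      simp only [Submodule.coe_add, map_add, LinearMap.add_apply]))
    (fun c a b => Subtype.ext (by
      simp only [Submodule.coe_smul, map_smul, LinearMap.smul_apply]))
    (fun a b b' => Subtype.ext (by simp only [Submodule.coe_add, map_add]))
    (fun c a b => Subtype.ext (by simp only [Submodule.coe_smul, map_smul]))

@[simp] lemma cupLCZ_coe (a : cocyclesLC 𝒰 A p) (b : cocyclesLC 𝒰 B q) :
    ((cupLCZ 𝒰 φ h a b : cocyclesLC 𝒰 C n) : cochains 𝒰 C n) = cupLCCochain 𝒰 φ h a.1 b.1 :=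
  rfl

lemma Hπ_cupLCZ_eq_zero_left (a : cocyclesLC 𝒰 A p) (b : cocyclesLC 𝒰 B q)
    (ha : Hπ 𝒰 A p a = 0) : Hπ 𝒰 C n (cupLCZ 𝒰 φ h a b) = 0 := by
  cases p with
  | zero =>
    rw [Hπ_eq_zero_iff_zero] at ha
    rw [ha, map_zero, LinearMap.zero_apply, map_zero]
  | succ p' =>
    obtain ⟨m, rfl⟩ : ∃ m, n = m + 1 := ⟨p' + q, by omega⟩
    obtain ⟨y, hy⟩ := (Hπ_eq_zero_iff_succ 𝒰 A p' a).1 ha
    have hb : dLC 𝒰 B q b.1 = 0 := b.2
    refine (Hπ_eq_zero_iff_succ 𝒰 C m _).2 ⟨cupLCCochain 𝒰 φ (show p' + q = m by omega) y b.1, ?_⟩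
    rw [dLC_cupLCCochain, hb, map_zero, smul_zero, add_zero, hy]
    rfl

lemma Hπ_cupLCZ_eq_zero_right (a : cocyclesLC 𝒰 A p) (b : cocyclesLC 𝒰 B q)
    (hb : Hπ 𝒰 B q b = 0) : Hπ 𝒰 C n (cupLCZ 𝒰 φ h a b) = 0 := by
  cases q with
  | zero =>
    rw [Hπ_eq_zero_iff_zero] at hb
    rw [hb, map_zero, map_zero]
  | succ q' =>
    obtain ⟨m, rfl⟩ : ∃ m, n = m + 1 := ⟨p + q', by omega⟩
    obtain ⟨y, hy⟩ := (Hπ_eq_zero_iff_succ 𝒰 B q' b).1 hb
    have ha : dLC 𝒰 A p a.1 = 0 := a.2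
    refine (Hπ_eq_zero_iff_succ 𝒰 C m _).2
      ⟨(-1 : k) ^ p • cupLCCochain 𝒰 φ (show p + q' = m by omega) a.1 y, ?_⟩
    rw [map_smul, dLC_cupLCCochain, ha, map_zero, LinearMap.zero_apply, zero_add, smul_smul,
      ← pow_add, Even.neg_one_pow ⟨p, rfl⟩, one_smul, hy]
    rfl

/-- The cup product on level-constant cohomology. -/
def cupLC : LC.H 𝒰 A p →ₗ[k] LC.H 𝒰 B q →ₗ[k] LC.H 𝒰 C n :=
  descBilin (Z₁ := cocyclesLC 𝒰 A p) (Z₂ := cocyclesLC 𝒰 B q) (H₁ := LC.H 𝒰 A p)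
    (H₂ := LC.H 𝒰 B q) (H := LC.H 𝒰 C n)
    (Hπ 𝒰 A p) (Hπ 𝒰 B q) (Hπ_surjective 𝒰 A p) (Hπ_surjective 𝒰 B q)
    ((cupLCZ 𝒰 φ h).compr₂ (Hπ 𝒰 C n))
    (fun z₁ hz₁ z₂ => by
      rw [LinearMap.compr₂_apply]
      exact Hπ_cupLCZ_eq_zero_left 𝒰 φ h z₁ z₂ hz₁)
    (fun z₁ z₂ hz₂ => by
      rw [LinearMap.compr₂_apply]
      exact Hπ_cupLCZ_eq_zero_right 𝒰 φ h z₁ z₂ hz₂)

theorem cupLC_Hπ (a : cocyclesLC 𝒰 A p) (b : cocyclesLC 𝒰 B q) :
    cupLC 𝒰 φ h (Hπ 𝒰 A p a) (Hπ 𝒰 B q b) = Hπ 𝒰 C n (cupLCZ 𝒰 φ h a b) := by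
  rw [cupLC, descBilin_apply, LinearMap.compr₂_apply]

end cohomology

end Fermat.Agent.CFT.A3
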