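/-
PROJECT C (S55), slice A3a' (iii) (helper23): ASSOCIATIVITY of the cup product, on cochains
(`cupFun_assoc`), on group cohomology (`cup_assoc`, helper26's `Cup.cup`) and on level-constant
cohomology (`cupLC_assoc`), for pairings with
`φ_{AB,C} (φ_{A,B} a b) c = φ_{A,BC} a (φ_{B,C} b c)`.
Also: `prodFst_tupleFst`, `prodFst_add` (partial products of split tuples).
-/
import Fermat.Agent.CFT.Cup.Cohomology
import Fermat.Agent.CFT.A3.CupLC

noncomputable section

universe u

namespace Fermat.Agent.CFT.A3

open CategoryTheory groupCohomology Fermat.Agent.CFT.Cup Fermat.Agent.CFT.LC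

variable {k G : Type u} [CommRing k] [Group G]

section tuples

variable {α : Type*} {p q r n : ℕ}

lemma tupleFst_tupleFst (h : (p + q) + r = n) (x : Fin n → α) :
    tupleFst (show p + q = p + q from rfl) (tupleFst h x) =
      tupleFst (show p + (q + r) = n by omega) x := by
  funext i; rfl

lemma tupleSnd_tupleFst (h : (p + q) + r = n) (x : Fin n → α) :
    tupleSnd (show p + q = p + q from rfl) (tupleFst h x) =
      tupleFst (show q + r = q + r from rfl) (tupleSnd (show p + (q + r) = n by omega) x) := by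
  funext i; rfl

lemma tupleSnd_tupleSnd (h : (p + q) + r = n) (x : Fin n → α) :
    tupleSnd h x =
      tupleSnd (show q + r = q + r from rfl) (tupleSnd (show p + (q + r) = n by omega) x) := by
  funext i
  simp only [tupleSnd_apply]
  congr 1
  ext
  simp
  omega

end tuples

section prods

variable {p q n : ℕ}

lemma partialProd_tupleFst_aux (m : ℕ) (h : m + q = n) (x : Fin n → G) (i : ℕ) (hi : i ≤ m) :
    Fin.partialProd (tupleFst h x) ⟨i, by omega⟩ = Fin.partialProd x ⟨i, by omega⟩ := by
  induction i with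
  | zero => simp [Fin.partialProd]
  | succ j ih =>
    have h1 := Fin.partialProd_succ (tupleFst h x) ⟨j, by omega⟩
    have h2 := Fin.partialProd_succ x ⟨j, by omega⟩
    simp only [Fin.succ_mk, Fin.castSucc_mk] at h1 h2
    rw [h1, h2, ih (by omega)]
    rfl

/-- The product of the first `p` entries only depends on the first `m ≥ p` entries. -/
lemma prodFst_tupleFst (m : ℕ) (h : m + q = n) (hp : p ≤ m) (x : Fin n → G) :
    prodFst p hp (tupleFst h x) = prodFst p (by omega) x :=
  partialProd_tupleFst_aux m h x p hp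

lemma partialProd_add_aux (h : p + q = n) (x : Fin n → G) (i : ℕ) (hi : i ≤ q) :
    Fin.partialProd x ⟨p + i, by omega⟩ =
      Fin.partialProd x ⟨p, by omega⟩ * Fin.partialProd (tupleSnd h x) ⟨i, by omega⟩ := by
  induction i with
  | zero => simp [Fin.partialProd]
  | succ j ih =>
    have h1 := Fin.partialProd_succ x ⟨p + j, by omega⟩
    have h2 := Fin.partialProd_succ (tupleSnd h x) ⟨j, by omega⟩
    simp only [Fin.succ_mk, Fin.castSucc_mk] at h1 h2
    have e : (⟨p + (j + 1), by omega⟩ : Fin (n + 1)) = ⟨p + j + 1, by omega⟩ := by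
      ext; simp; omega
    rw [e, h1, h2, ih (by omega), mul_assoc]
    rfl

/-- `x₁ ⋯ x_{p+i} = (x₁ ⋯ x_p) (x_{p+1} ⋯ x_{p+i})`. -/
lemma prodFst_add (h : p + q = n) (x : Fin n → G) (i : ℕ) (hi : i ≤ q) :
    prodFst (p + i) (by omega) x = prodFst p (by omega) x * prodFst i hi (tupleSnd h x) :=
  partialProd_add_aux h x i hi

end prods

section assoc

variable {A B C AB BC ABC : Rep.{u} k G}
  (φAB : Pairing A B AB) (φABC₁ : Pairing AB C ABC) (φBC : Pairing B C BC)
  (φABC₂ : Pairing A BC ABC)

/-- **Associativity** of the cup product on cochains, for compatible pairings. -/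
theorem cupFun_assoc
    (hφ : ∀ a b c, φABC₁.toLin (φAB.toLin a b) c = φABC₂.toLin a (φBC.toLin b c))
    {p q r n : ℕ} (h : (p + q) + r = n)
    (f : (Fin p → G) → A.V) (g : (Fin q → G) → B.V) (e : (Fin r → G) → C.V) :
    cupFun φABC₁ h (cupFun φAB (show p + q = p + q from rfl) f g) e =
      cupFun φABC₂ (show p + (q + r) = n by omega) f
        (cupFun φBC (show q + r = q + r from rfl) g e) := by
  have h' : p + (q + r) = n := by omega
  funext x
  rw [cupFun_apply, cupFun_apply, cupFun_apply, cupFun_apply, hφ, tupleFst_tupleFst h,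
    tupleSnd_tupleFst h, tupleSnd_tupleSnd h, prodFst_tupleFst (p + q) h (by omega) x,
    prodFst_add h' x q (by omega), map_mul, Module.End.mul_apply, Pairing.ρ_apply φBC]

/-- **Associativity** of the cup product on cohomology, for compatible pairings. -/
theorem cup_assoc
    (hφ : ∀ a b c, φABC₁.toLin (φAB.toLin a b) c = φABC₂.toLin a (φBC.toLin b c))
    {p q r pq qr n : ℕ} (hpq : p + q = pq) (hqr : q + r = qr) (h₁ : pq + r = n)
    (h₂ : p + qr = n)
    (x : groupCohomology A p) (y : groupCohomology B q) (z : groupCohomology C r) :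
    cup φABC₁ h₁ (cup φAB hpq x y) z = cup φABC₂ h₂ x (cup φBC hqr y z) := by
  subst hpq hqr
  induction x using cls_induction_on with
  | h a =>
  induction y using cls_induction_on with
  | h b =>
  induction z using cls_induction_on with
  | h c =>
  rw [cup_cls, cup_cls, cup_cls, cup_cls]
  congr 1
  apply Subtype.ext
  exact cupFun_assoc φAB φABC₁ φBC φABC₂ hφ h₁ a.1 b.1 c.1

/-- **Associativity** of the cup product on level-constant cohomology. -/
theorem cupLC_assoc (𝒰 : Levels G)
    (hφ : ∀ a b c, φABC₁.toLin (φAB.toLin a b) c = φABC₂.toLin a (φBC.toLin b c))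
    {p q r pq qr n : ℕ} (hpq : p + q = pq) (hqr : q + r = qr) (h₁ : pq + r = n)
    (h₂ : p + qr = n)
    (x : LC.H 𝒰 A p) (y : LC.H 𝒰 B q) (z : LC.H 𝒰 C r) :
    cupLC 𝒰 φABC₁ h₁ (cupLC 𝒰 φAB hpq x y) z = cupLC 𝒰 φABC₂ h₂ x (cupLC 𝒰 φBC hqr y z) := by
  subst hpq hqr
  induction x using H_induction_on with
  | h a =>
  induction y using H_induction_on with
  | h b =>
  induction z using H_induction_on with
  | h c =>
  rw [cupLC_Hπ, cupLC_Hπ, cupLC_Hπ, cupLC_Hπ]
  congr 1
  apply Subtype.ext
  apply Subtype.ext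
  exact cupFun_assoc φAB φABC₁ φBC φABC₂ hφ h₁ a.1.1 b.1.1 c.1.1

end assoc

end Fermat.Agent.CFT.A3
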