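/-
PROJECT C (S55), Layer A, slice A3a (helper23).

Cup products on Mathlib's inhomogeneous cochains (cochain level) and the Leibniz rule.
Mathlib-only.

For an equivariant bilinear pairing `φ : A × B → C` of `k`-linear `G`-representations and
`h : p + q = n`:
`(f ∪ g)(x₁,…,xₙ) = φ (f (x₁,…,x_p)) ((x₁⋯x_p) • g (x_{p+1},…,xₙ))`
and `d (f ∪ g) = d f ∪ g + (-1)^p • f ∪ d g`  (`d_cupFun`).
-/
import Mathlib

namespace Fermat.Agent.CFT.A3

universe u

open CategoryTheory

variable {k G : Type u} [CommRing k] [Group G]

/-- ordered product of the first `p` entries of a tuple -/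
def prefixProd {n : ℕ} (x : Fin n → G) (p : ℕ) : G := ((List.ofFn x).take p).prod

lemma prefixProd_eq_partialProd {n : ℕ} (x : Fin n → G) (i : Fin (n + 1)) :
    prefixProd x i = Fin.partialProd x i := rfl

@[simp] lemma prefixProd_zero {n : ℕ} (x : Fin n → G) : prefixProd x 0 = 1 := by
  simp [prefixProd]

lemma prefixProd_succ_left {n : ℕ} (x : Fin (n + 1) → G) (p : ℕ) :
    prefixProd x (p + 1) = x 0 * prefixProd (fun i => x i.succ) p := by
  simp [prefixProd, List.ofFn_succ]

lemma prefixProd_succ_right {n : ℕ} (x : Fin n → G) (p : ℕ) (hp : p < n) :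
    prefixProd x (p + 1) = prefixProd x p * x ⟨p, hp⟩ :=
  Fin.partialProd_succ x ⟨p, hp⟩

/-- the first `p` entries -/
def front {p q n : ℕ} (h : p + q = n) (x : Fin n → G) : Fin p → G := fun i => x ⟨i, by omega⟩

/-- the last `q` entries -/
def back {p q n : ℕ} (h : p + q = n) (x : Fin n → G) : Fin q → G := fun j => x ⟨p + j, by omega⟩

section tuples

variable {p q : ℕ} (x : Fin (p + q + 1) → G)

omit [Group G] in
lemma front_succ :
    front (p := p) (q := q) rfl (fun i => x i.succ) =
      fun i => front (p := p + 1) (q := q) (by omega) x i.succ := by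
  funext i; simp [front]

omit [Group G] in
lemma back_succ :
    back (p := p) (q := q) rfl (fun i => x i.succ) = back (p := p + 1) (q := q) (by omega) x := by
  funext i; simp only [back]; congr 1; ext; simp; omega

lemma front_contract_lt (j : Fin p) :
    front (p := p) (q := q) rfl (Fin.contractNth (Fin.castAdd (q + 1) j) (· * ·) x) =
      Fin.contractNth (Fin.castSucc j) (· * ·) (front (p := p + 1) (q := q) (by omega) x) := by
  funext i
  simp only [front, Fin.contractNth, Fin.val_castAdd, Fin.val_castSucc, Fin.castSucc_mk,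
    Fin.succ_mk, Fin.val_succ]

lemma back_contract_lt (j : Fin p) :
    back (p := p) (q := q) rfl (Fin.contractNth (Fin.castAdd (q + 1) j) (· * ·) x) =
      back (p := p + 1) (q := q) (by omega) x := by
  funext i
  have h1 : ¬ (p + (i : ℕ) < (j : ℕ)) := by omega
  have h2 : ¬ (p + (i : ℕ) = (j : ℕ)) := by omega
  simp only [back, Fin.contractNth, Fin.val_castAdd, h1, h2, if_false]
  congr 1; ext; simp; omega

lemma prefixProd_contract_lt (j : Fin p) :
    prefixProd (Fin.contractNth (Fin.castAdd (q + 1) j) (· * ·) x) p = prefixProd x (p + 1) := by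
  have h := congrFun (Fin.partialProd_contractNth x (Fin.castAdd (q + 1) j)) ⟨p, by omega⟩
  rw [Function.comp_apply, Fin.succAbove_of_le_castSucc] at h
  · exact h
  · simp [Fin.le_def]

lemma front_contract_ge (i : Fin (q + 1)) :
    front (p := p) (q := q) rfl
        (Fin.contractNth (Fin.natAdd p i : Fin (p + (q + 1))) (· * ·) x) =
      front (p := p) (q := q + 1) rfl x := by
  funext a
  have h1 : (a : ℕ) < p + i := by omega
  simp only [front, Fin.contractNth, Fin.val_natAdd, h1, if_true]
  rfl

lemma back_contract_ge (i : Fin (q + 1)) :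
    back (p := p) (q := q) rfl
        (Fin.contractNth (Fin.natAdd p i : Fin (p + (q + 1))) (· * ·) x) =
      Fin.contractNth i (· * ·) (back (p := p) (q := q + 1) rfl x) := by
  funext a
  simp only [back, Fin.contractNth, Fin.val_natAdd, add_lt_add_iff_left, add_right_inj,
    Fin.castSucc_mk, Fin.succ_mk, Fin.val_castSucc, Fin.val_succ]
  rfl

lemma prefixProd_contract_ge (i : Fin (q + 1)) :
    prefixProd (Fin.contractNth (Fin.natAdd p i : Fin (p + (q + 1))) (· * ·) x) p =
      prefixProd x p := by
  have h := congrFun (Fin.partialProd_contractNth x (Fin.natAdd p i : Fin (p + (q + 1))))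
    ⟨p, by omega⟩
  rw [Function.comp_apply, Fin.succAbove_of_castSucc_lt] at h
  · exact h
  · simp [Fin.lt_def]

lemma contract_last_front :
    Fin.contractNth (Fin.last p) (· * ·) (front (p := p + 1) (q := q) (by omega) x) =
      front (p := p) (q := q + 1) rfl x := by
  funext a
  have h1 : (a : ℕ) < p := a.2
  simp only [front, Fin.contractNth, Fin.val_last, h1, if_true]
  rfl

omit [Group G] in
lemma back_succ' :
    (fun i : Fin q => back (p := p) (q := q + 1) rfl x i.succ) =
      back (p := p + 1) (q := q) (by omega) x := by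
  funext i; simp only [back]; congr 1; ext; simp; omega

end tuples


/-- A `G`-equivariant `k`-bilinear pairing `A × B → C` of representations. -/
structure EquivPairing (A B C : Rep.{u} k G) where
  /-- the underlying bilinear map -/
  toLin : A.V →ₗ[k] B.V →ₗ[k] C.V
  /-- equivariance -/
  map_ρ : ∀ (g : G) (a : A.V) (b : B.V), toLin (A.ρ g a) (B.ρ g b) = C.ρ g (toLin a b)

variable {A B C : Rep.{u} k G}

/-- The cup product of inhomogeneous cochains: for `h : p + q = n`,
`(f ∪ g)(x₁,…,xₙ) = φ (f (x₁,…,x_p)) ((x₁⋯x_p) • g (x_{p+1},…,xₙ))`. -/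
def cupFun (φ : EquivPairing A B C) (p q n : ℕ) (h : p + q = n)
    (f : (Fin p → G) → A.V) (g : (Fin q → G) → B.V) : (Fin n → G) → C.V :=
  fun x => φ.toLin (f (front h x)) (B.ρ (prefixProd x p) (g (back h x)))

open inhomogeneousCochains in
theorem d_cupFun (φ : EquivPairing A B C) (p q n : ℕ) (h : p + q = n)
    (f : (Fin p → G) → A.V) (g : (Fin q → G) → B.V) :
    (d C n).hom (cupFun φ p q n h f g) =
      cupFun φ (p + 1) q (n + 1) (by omega) ((d A p).hom f) g +
        (-1 : k) ^ p • cupFun φ p (q + 1) (n + 1) (by omega) f ((d B q).hom g) := by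
  subst h
  funext x
  rw [d_hom_apply]
  simp only [Pi.add_apply, Pi.smul_apply, cupFun]
  rw [d_hom_apply, d_hom_apply]
  -- the leading term
  have hT0 : C.ρ (x 0)
        (φ.toLin (f (front (p := p) (q := q) rfl fun i => x i.succ))
          (B.ρ (prefixProd (fun i => x i.succ) p)
            (g (back (p := p) (q := q) rfl fun i => x i.succ)))) =
      φ.toLin (A.ρ (front (p := p + 1) (q := q) (by omega) x 0)
          (f fun i => front (p := p + 1) (q := q) (by omega) x i.succ))
        (B.ρ (prefixProd x (p + 1)) (g (back (p := p + 1) (q := q) (by omega) x))) := by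
    rw [← φ.map_ρ, front_succ, back_succ, prefixProd_succ_left x p, map_mul]
    rfl
  -- splitting the sum
  have hS : (∑ j : Fin (p + q + 1), (-1 : k) ^ ((j : ℕ) + 1) •
        φ.toLin (f (front (p := p) (q := q) rfl (j.contractNth (· * ·) x)))
          (B.ρ (prefixProd (j.contractNth (· * ·) x) p)
            (g (back (p := p) (q := q) rfl (j.contractNth (· * ·) x))))) =
      (∑ j : Fin p, (-1 : k) ^ ((j : ℕ) + 1) •
        φ.toLin (f ((Fin.castSucc j).contractNth (· * ·)
            (front (p := p + 1) (q := q) (by omega) x)))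
          (B.ρ (prefixProd x (p + 1)) (g (back (p := p + 1) (q := q) (by omega) x)))) +
      ∑ i : Fin (q + 1), (-1 : k) ^ (p + (i : ℕ) + 1) •
        φ.toLin (f (front (p := p) (q := q + 1) rfl x))
          (B.ρ (prefixProd x p)
            (g (i.contractNth (· * ·) (back (p := p) (q := q + 1) rfl x)))) := by
    rw [show (∑ j : Fin (p + q + 1), (-1 : k) ^ ((j : ℕ) + 1) •
        φ.toLin (f (front (p := p) (q := q) rfl (j.contractNth (· * ·) x)))
          (B.ρ (prefixProd (j.contractNth (· * ·) x) p)
            (g (back (p := p) (q := q) rfl (j.contractNth (· * ·) x))))) =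
        ∑ j : Fin (p + (q + 1)), (-1 : k) ^ ((j : ℕ) + 1) •
        φ.toLin (f (front (p := p) (q := q) rfl (j.contractNth (· * ·) x)))
          (B.ρ (prefixProd (j.contractNth (· * ·) x) p)
            (g (back (p := p) (q := q) rfl (j.contractNth (· * ·) x)))) from rfl,
      Fin.sum_univ_add]
    congr 1
    · refine Finset.sum_congr rfl fun j _ => ?_
      rw [front_contract_lt, back_contract_lt, prefixProd_contract_lt, Fin.val_castAdd]
    · refine Finset.sum_congr rfl fun i _ => ?_
      rw [front_contract_ge, back_contract_ge, prefixProd_contract_ge, Fin.val_natAdd]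
  -- the cancelling terms
  have hL : B.ρ (prefixProd x p) (B.ρ (back (p := p) (q := q + 1) rfl x 0)
        (g fun i => back (p := p) (q := q + 1) rfl x i.succ)) =
      B.ρ (prefixProd x (p + 1)) (g (back (p := p + 1) (q := q) (by omega) x)) := by
    rw [back_succ', prefixProd_succ_right x p (by omega), map_mul]
    rfl
  rw [hT0, hS, Fin.sum_univ_castSucc (n := p), contract_last_front]
  simp only [map_add, map_sum, map_smul, LinearMap.add_apply, LinearMap.smul_apply,
    LinearMap.sum_apply, hL, Fin.val_castSucc, Fin.val_last, smul_add,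
    Finset.smul_sum, smul_smul, ← pow_add]
  have hsum : ∀ i : Fin (q + 1), (-1 : k) ^ (p + (i : ℕ) + 1) = (-1 : k) ^ (p + ((i : ℕ) + 1)) :=
    fun i => by rw [add_assoc]
  simp only [hsum]
  have hc : (-1 : k) ^ (p + 1) •
        φ.toLin (f (front (p := p) (q := q + 1) rfl x))
          (B.ρ (prefixProd x (p + 1)) (g (back (p := p + 1) (q := q) (by omega) x))) +
      (-1 : k) ^ p •
        φ.toLin (f (front (p := p) (q := q + 1) rfl x))
          (B.ρ (prefixProd x (p + 1)) (g (back (p := p + 1) (q := q) (by omega) x))) = 0 := by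
    rw [← add_smul, pow_succ]; simp
  rw [eq_neg_of_add_eq_zero_left hc]
  abel


section linear

variable (φ : EquivPairing A B C) (p q n : ℕ) (h : p + q = n)

lemma cupFun_apply (f : (Fin p → G) → A.V) (g : (Fin q → G) → B.V) (x : Fin n → G) :
    cupFun φ p q n h f g x =
      φ.toLin (f (front h x)) (B.ρ (prefixProd x p) (g (back h x))) := rfl

/-- The cup product of inhomogeneous cochains as a bilinear map. -/
def cup : ((Fin p → G) → A.V) →ₗ[k] ((Fin q → G) → B.V) →ₗ[k] ((Fin n → G) → C.V) :=
  LinearMap.mk₂ k (cupFun φ p q n h)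
    (fun f₁ f₂ g => by funext x; simp [cupFun])
    (fun c f g => by funext x; simp [cupFun])
    (fun f g₁ g₂ => by funext x; simp [cupFun])
    (fun c f g => by funext x; simp [cupFun])

@[simp] lemma cup_apply (f : (Fin p → G) → A.V) (g : (Fin q → G) → B.V) :
    cup φ p q n h f g = cupFun φ p q n h f g := rfl

open inhomogeneousCochains in
/-- Leibniz rule, bilinear-map form. -/
theorem d_cup (f : (Fin p → G) → A.V) (g : (Fin q → G) → B.V) :
    (d C n).hom (cup φ p q n h f g) =
      cup φ (p + 1) q (n + 1) (by omega) ((d A p).hom f) g +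
        (-1 : k) ^ p • cup φ p (q + 1) (n + 1) (by omega) f ((d B q).hom g) :=
  d_cupFun φ p q n h f g

end linear

end Fermat.Agent.CFT.A3
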