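/-
PROJECT C (S55), Layer A, slice A3a (helper23).

Cup products on Mathlib's `groupCohomology` (degrees `≥ 0`).  Mathlib-only.

* `cupZ φ p q n h : Zc A p →ₗ[k] Zc B q →ₗ[k] Zc C n`  (cup of cocycles is a cocycle);
* `cup_mem_Bc_left`, `cup_mem_Bc_right`  (cup of a coboundary and a cocycle is a coboundary);
* `cupH φ p q n h : groupCohomology A p →ₗ[k] groupCohomology B q →ₗ[k] groupCohomology C n`
  with `cupH_toH : cupH φ p q n h (toH A p a) (toH B q b) = toH C n (cupZ φ p q n h a b)`.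
-/
import Fermat.Agent.CFT.A3.Cocycles
import Fermat.Agent.CFT.A3.Cup

namespace Fermat.Agent.CFT.A3

universe u

open CategoryTheory groupCohomology

variable {k G : Type u} [CommRing k] [Group G] {A B C : Rep.{u} k G}

section cocycles

variable (φ : EquivPairing A B C) (p q n : ℕ) (h : p + q = n)

lemma cup_mem_Zc {f : (Fin p → G) → A.V} {g : (Fin q → G) → B.V}
    (hf : f ∈ Zc A p) (hg : g ∈ Zc B q) : cup φ p q n h f g ∈ Zc C n := by
  rw [mem_Zc] at hf hg ⊢
  rw [d_cup, hf, hg, map_zero, map_zero, LinearMap.zero_apply, smul_zero, add_zero]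

lemma cup_mem_Bc_left {f : (Fin p → G) → A.V} {g : (Fin q → G) → B.V}
    (hf : f ∈ Bc A p) (hg : g ∈ Zc B q) : cup φ p q n h f g ∈ Bc C n := by
  cases p with
  | zero =>
    rw [mem_Bc_zero] at hf
    rw [hf, map_zero, LinearMap.zero_apply]
    exact Submodule.zero_mem _
  | succ p' =>
    obtain ⟨y, rfl⟩ := (mem_Bc_succ A).1 hf
    obtain ⟨m, rfl⟩ : ∃ m, n = m + 1 := ⟨p' + q, by omega⟩
    rw [mem_Zc] at hg
    refine (mem_Bc_succ C).2 ⟨cup φ p' q m (by omega) y g, ?_⟩
    rw [d_cup, hg, map_zero, smul_zero, add_zero]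

lemma cup_mem_Bc_right {f : (Fin p → G) → A.V} {g : (Fin q → G) → B.V}
    (hf : f ∈ Zc A p) (hg : g ∈ Bc B q) : cup φ p q n h f g ∈ Bc C n := by
  cases q with
  | zero =>
    rw [mem_Bc_zero] at hg
    rw [hg, map_zero]
    exact Submodule.zero_mem _
  | succ q' =>
    obtain ⟨y, rfl⟩ := (mem_Bc_succ B).1 hg
    obtain ⟨m, rfl⟩ : ∃ m, n = m + 1 := ⟨p + q', by omega⟩
    rw [mem_Zc] at hf
    refine (mem_Bc_succ C).2 ⟨(-1 : k) ^ p • cup φ p q' m (by omega) f y, ?_⟩
    rw [map_smul, d_cup, hf, map_zero, LinearMap.zero_apply, zero_add, smul_smul, ← pow_add,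
      Even.neg_one_pow ⟨p, rfl⟩, one_smul]

/-- The cup product of cocycles. -/
def cupZ : Zc A p →ₗ[k] Zc B q →ₗ[k] Zc C n :=
  LinearMap.mk₂ k (fun a b => ⟨cup φ p q n h a.1 b.1, cup_mem_Zc φ p q n h a.2 b.2⟩)
    (fun a₁ a₂ b => Subtype.ext (by simp only [Submodule.coe_add, map_add, LinearMap.add_apply]))
    (fun c a b => Subtype.ext (by simp only [Submodule.coe_smul, map_smul, LinearMap.smul_apply]))
    (fun a b₁ b₂ => Subtype.ext (by simp only [Submodule.coe_add, map_add]))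
    (fun c a b => Subtype.ext (by simp only [Submodule.coe_smul, map_smul]))

@[simp] lemma cupZ_coe (a : Zc A p) (b : Zc B q) :
    (cupZ φ p q n h a b : (Fin n → G) → C.V) = cupFun φ p q n h a.1 b.1 := rfl

end cocycles

section cohomology

variable (φ : EquivPairing A B C) (p q n : ℕ) (h : p + q = n)

/-- The cup product on group cohomology
`Hᵖ(G, A) × H^q(G, B) → Hⁿ(G, C)`, `p + q = n`, attached to an equivariant pairing. -/
noncomputable def cupH :
    groupCohomology A p →ₗ[k] groupCohomology B q →ₗ[k] groupCohomology C n :=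
  descBilin (toH A p) (toH B q) (toH_surjective A p) (toH_surjective B q)
    ((cupZ φ p q n h).compr₂ (toH C n))
    (fun z₁ hz₁ z₂ => by
      rw [LinearMap.compr₂_apply]
      exact toH_eq_zero_of_mem_Bc C n _
        (cup_mem_Bc_left φ p q n h ((toH_eq_zero_iff A p z₁).1 hz₁) z₂.2))
    (fun z₁ z₂ hz₂ => by
      rw [LinearMap.compr₂_apply]
      exact toH_eq_zero_of_mem_Bc C n _
        (cup_mem_Bc_right φ p q n h z₁.2 ((toH_eq_zero_iff B q z₂).1 hz₂)))

theorem cupH_toH (a : Zc A p) (b : Zc B q) :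
    cupH φ p q n h (toH A p a) (toH B q b) = toH C n (cupZ φ p q n h a b) := by
  rw [cupH, descBilin_apply, LinearMap.compr₂_apply]

end cohomology

end Fermat.Agent.CFT.A3
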