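/-
PROJECT C (S55), slice A3a' (helper23): functoriality of the cup product on level-constant
cohomology (`cupLC`, file `A3/CupLC.lean`):

* `toAbstract_Hπ`, `toAbstract_cupLC` : compatibility with the comparison map to abstract group
  cohomology and helper26's `Cup.cup`;
* `cupLC_map` : naturality along `LC.map` (continuous group homomorphism + coefficient maps),
  `cupLC_mapId`, `cupLC_map_res`.
-/
import Fermat.Agent.CFT.A3.CupLC
import Fermat.Agent.CFT.Cup.Functorial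
import Fermat.Agent.CFT.LC.Functoriality

noncomputable section

universe u

namespace Fermat.Agent.CFT.A3

open CategoryTheory groupCohomology Fermat.Agent.CFT.Cup Fermat.Agent.CFT.LC

variable {k G : Type u} [CommRing k] [Group G]

section toAbstract

variable (𝒰 : Levels G) (A : Rep.{u} k G)

lemma cocyclesLC_mem_Z {n : ℕ} (z : cocyclesLC 𝒰 A n) : z.1.1 ∈ Z A n :=
  mem_Z.2 ((mem_cocyclesLC_iff 𝒰 A z.1).1 z.2)

/-- The underlying abstract cocycle of a level-constant cocycle. -/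
def toZ (n : ℕ) : cocyclesLC 𝒰 A n →ₗ[k] Z A n where
  toFun z := ⟨z.1.1, cocyclesLC_mem_Z 𝒰 A z⟩
  map_add' _ _ := rfl
  map_smul' _ _ := rfl

@[simp] lemma toZ_coe (n : ℕ) (z : cocyclesLC 𝒰 A n) :
    (toZ 𝒰 A n z : (Fin n → G) → A.V) = z.1.1 := rfl

/-- The comparison map on classes. -/
theorem toAbstract_Hπ (n : ℕ) (z : cocyclesLC 𝒰 A n) :
    toAbstract 𝒰 A n (Hπ 𝒰 A n z) = cls A n (toZ 𝒰 A n z) := by
  rw [Hπ_apply]
  have h2 := ConcreteCategory.congr_hom
    (HomologicalComplex.homologyπ_naturality (ι 𝒰 A) n) (cycleOf 𝒰 A n z)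
  rw [ConcreteCategory.comp_apply, ConcreteCategory.comp_apply] at h2
  refine h2.trans ?_
  change π A n _ = _
  rw [π_eq_cls]
  congr 1
  apply Subtype.ext
  rw [ofCocycles'_coe, toZ_coe]
  have h4 := ConcreteCategory.congr_hom
    (HomologicalComplex.cyclesMap_i (ι 𝒰 A) n) (cycleOf 𝒰 A n z)
  rw [ConcreteCategory.comp_apply, ConcreteCategory.comp_apply] at h4
  refine h4.trans ?_
  rw [iCycles_cycleOf]
  rfl

variable {A} {B C : Rep.{u} k G}

/-- The comparison map to abstract cohomology is compatible with cup products. -/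
theorem toAbstract_cupLC (φ : Pairing A B C) {p q n : ℕ} (h : p + q = n)
    (x : LC.H 𝒰 A p) (y : LC.H 𝒰 B q) :
    toAbstract 𝒰 C n (cupLC 𝒰 φ h x y) =
      cup φ h (toAbstract 𝒰 A p x) (toAbstract 𝒰 B q y) := by
  induction x using H_induction_on with
  | h a =>
  induction y using H_induction_on with
  | h b =>
  rw [cupLC_Hπ, toAbstract_Hπ, toAbstract_Hπ, toAbstract_Hπ, cup_cls]
  rfl

end toAbstract

section naturality

variable {G' : Type u} [Group G'] {𝒰 : Levels G} {𝒰' : Levels G'}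
  {A B C : Rep.{u} k G} {A' B' C' : Rep.{u} k G'}

/-- The cup product on level-constant cohomology commutes with `LC.map` along a continuous group
homomorphism and compatible maps of coefficients. -/
theorem cupLC_map {f : G' →* G} (hf : Levels.Continuous f 𝒰' 𝒰)
    (φ : Pairing A B C) (φ' : Pairing A' B' C')
    (α : Rep.res f A ⟶ A') (β : Rep.res f B ⟶ B') (γ : Rep.res f C ⟶ C')
    (hφ : ∀ a b, φ'.toLin (α.hom a) (β.hom b) = γ.hom (φ.toLin a b))
    {p q n : ℕ} (h : p + q = n) (x : LC.H 𝒰 A p) (y : LC.H 𝒰 B q) :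
    cupLC 𝒰' φ' h (LC.map hf α p x) (LC.map hf β q y) = LC.map hf γ n (cupLC 𝒰 φ h x y) := by
  induction x using H_induction_on with
  | h a =>
  induction y using H_induction_on with
  | h b =>
  rw [map_Hπ, map_Hπ, cupLC_Hπ, cupLC_Hπ, map_Hπ]
  congr 1
  apply Subtype.ext
  apply Subtype.ext
  exact cupFun_cochainsMap f φ φ' α β γ hφ h a.1.1 b.1.1

/-- Naturality of `cupLC` in the coefficients. -/
theorem cupLC_mapId {A₁ B₁ C₁ : Rep.{u} k G} (φ : Pairing A B C) (φ₁ : Pairing A₁ B₁ C₁)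
    (α : A ⟶ A₁) (β : B ⟶ B₁) (γ : C ⟶ C₁)
    (hφ : ∀ a b, φ₁.toLin (α.hom a) (β.hom b) = γ.hom (φ.toLin a b))
    {p q n : ℕ} (h : p + q = n) (x : LC.H 𝒰 A p) (y : LC.H 𝒰 B q) :
    cupLC 𝒰 φ₁ h (LC.map (A := A) (B := A₁) (Levels.continuous_id 𝒰) α p x)
        (LC.map (A := B) (B := B₁) (Levels.continuous_id 𝒰) β q y) =
      LC.map (A := C) (B := C₁) (Levels.continuous_id 𝒰) γ n (cupLC 𝒰 φ h x y) :=
  cupLC_map (Levels.continuous_id 𝒰) φ φ₁ α β γ hφ h x y

/-- `cupLC` commutes with restriction / inflation `LC.map hf (𝟙 _)`. -/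
theorem cupLC_map_res {f : G' →* G} (hf : Levels.Continuous f 𝒰' 𝒰) (φ : Pairing A B C)
    {p q n : ℕ} (h : p + q = n) (x : LC.H 𝒰 A p) (y : LC.H 𝒰 B q) :
    cupLC 𝒰' (φ.res f) h (LC.map hf (𝟙 (Rep.res f A)) p x) (LC.map hf (𝟙 (Rep.res f B)) q y) =
      LC.map hf (𝟙 (Rep.res f C)) n (cupLC 𝒰 φ h x y) :=
  cupLC_map hf φ (φ.res f) (𝟙 _) (𝟙 _) (𝟙 _) (fun _ _ => rfl) h x y

end naturality

end Fermat.Agent.CFT.A3
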