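/-
PROJECT C (S55), slice A3a' (helper23): the connecting homomorphism `lcδ` of level-constant
cohomology (helper8, `LC/LES.lean`) elementwise, and its compatibility with `cupLC`:

* `lcδ_Hπ`, `exists_lifts_LC`;
* `lcδ_cupLC_left`  : `lcδ (x'' ∪ y) = lcδ x'' ∪ y`;
* `lcδ_cupLC_right` : `lcδ (x ∪ y'') = (-1)ᵖ • (x ∪ lcδ y'')`.
-/
import Fermat.Agent.CFT.A3.CupLCNat
import Fermat.Agent.CFT.LC.LES
import Fermat.Agent.CFT.Cup.Delta

noncomputable section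

universe u

namespace Fermat.Agent.CFT.A3

open CategoryTheory groupCohomology Fermat.Agent.CFT.Cup Fermat.Agent.CFT.LC

variable {k G : Type u} [CommRing k] [Group G] {𝒰 : Levels G}

section deltaLC

variable [𝒰.IsFin] {X : ShortComplex (Rep.{u} k G)} (hX : X.ShortExact) (hsm : IsSmooth 𝒰 X.X₂)

/-- the map on level-constant cochains induced by a morphism of representations -/
abbrev mapC {A B : Rep.{u} k G} (ψ : A ⟶ B) (n : ℕ) : cochains 𝒰 A n →ₗ[k] cochains 𝒰 B n :=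
  cochainsMapLC (A := A) (B := B) (Levels.continuous_id 𝒰) ψ n

omit [𝒰.IsFin] in
lemma mapC_coe {A B : Rep.{u} k G} (ψ : A ⟶ B) (n : ℕ) (f : cochains 𝒰 A n) (g : Fin n → G) :
    (mapC ψ n f : cochains 𝒰 B n).1 g = ψ.hom (f.1 g) := rfl

theorem lcδ_Hπ_aux (i : ℕ) (z : cocyclesLC 𝒰 X.X₃ i) (y : cochains 𝒰 X.X₂ i)
    (hy : mapC X.g i y = z.1) (x : cochains 𝒰 X.X₁ (i + 1))
    (hx : mapC X.f (i + 1) x = dLC 𝒰 X.X₂ i y) (hxz : x ∈ cocyclesLC 𝒰 X.X₁ (i + 1)) :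
    lcδ hX hsm i (i + 1) rfl (Hπ 𝒰 X.X₃ i z) = Hπ 𝒰 X.X₁ (i + 1) ⟨x, hxz⟩ := by
  have hS := map_lcFunctor_shortExact hX hsm
  have hz : (complex 𝒰 X.X₃).d i (i + 1) z.1 = 0 := by
    rw [complex_d]; exact z.2
  have hx' : ((lcFunctor 𝒰).map X.f).f (i + 1) x = (complex 𝒰 X.X₂).d i (i + 1) y := by
    rw [complex_d]; exact hx
  have key := hS.δ_apply i (i + 1) rfl z.1 hz y hy x hx' (i + 1 + 1) (by simp)
  rw [Hπ_apply, Hπ_apply]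
  have e3 : cycleOf 𝒰 X.X₃ i z =
      (complex 𝒰 X.X₃).cyclesMk z.1 (i + 1) (by simp) hz := by
    apply Aux.iCycles_injective
    rw [iCycles_cycleOf]
    exact ((complex 𝒰 X.X₃).i_cyclesMk z.1 (i + 1) (by simp) hz).symm
  have e1 : cycleOf 𝒰 X.X₁ (i + 1) ⟨x, hxz⟩ =
      (complex 𝒰 X.X₁).cyclesMk x (i + 1 + 1) (by simp)
        (hS.d_eq_zero_of_f_eq_d_apply i (i + 1) y x hx' (i + 1 + 1)) := by
    apply Aux.iCycles_injective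
    rw [iCycles_cycleOf]
    exact ((complex 𝒰 X.X₁).i_cyclesMk x (i + 1 + 1) (by simp) _).symm
  rw [e3, e1]
  exact key

include hX in
omit [𝒰.IsFin] in
/-- A level-constant cochain of `X₁` whose image in `X₂` is a coboundary is a cocycle. -/
lemma mem_cocyclesLC_of_mapC_eq_dLC (i : ℕ) (y : cochains 𝒰 X.X₂ i) (x : cochains 𝒰 X.X₁ (i + 1))
    (hx : mapC X.f (i + 1) x = dLC 𝒰 X.X₂ i y) : x ∈ cocyclesLC 𝒰 X.X₁ (i + 1) := by
  rw [mem_cocyclesLC_iff]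
  have hx' : ∀ g, X.f.hom (x.1 g) = dF X.X₂ i y.1 g := fun g =>
    congrFun (congrArg Subtype.val hx) g
  exact mem_Z.1 (mem_Z_of_comp_eq_dF hX i y.1 x.1 hx')

/-- Elementwise description of the connecting homomorphism of level-constant cohomology. -/
theorem lcδ_Hπ (i : ℕ) (z : cocyclesLC 𝒰 X.X₃ i) (y : cochains 𝒰 X.X₂ i)
    (hy : mapC X.g i y = z.1) (x : cochains 𝒰 X.X₁ (i + 1))
    (hx : mapC X.f (i + 1) x = dLC 𝒰 X.X₂ i y) :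
    lcδ hX hsm i (i + 1) rfl (Hπ 𝒰 X.X₃ i z) =
      Hπ 𝒰 X.X₁ (i + 1) ⟨x, mem_cocyclesLC_of_mapC_eq_dLC hX i y x hx⟩ :=
  lcδ_Hπ_aux hX hsm i z y hy x hx _

include hX hsm in
/-- Every level-constant cocycle of `X₃` admits the level-constant lifts computing `lcδ`. -/
lemma exists_lifts_LC (i : ℕ) (z : cocyclesLC 𝒰 X.X₃ i) :
    ∃ (y : cochains 𝒰 X.X₂ i) (x : cochains 𝒰 X.X₁ (i + 1)),
      mapC X.g i y = z.1 ∧ mapC X.f (i + 1) x = dLC 𝒰 X.X₂ i y := by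
  have hS := map_lcFunctor_shortExact hX hsm
  have hSi : ∀ n, ((X.map (lcFunctor 𝒰)).map
      (HomologicalComplex.eval (ModuleCat k) (ComplexShape.up ℕ) n)).ShortExact :=
    fun n => hS.map_of_exact (HomologicalComplex.eval ..)
  obtain ⟨(y : cochains 𝒰 X.X₂ i), hy⟩ := (hSi i).moduleCat_surjective_g z.1
  have hy' : mapC X.g i y = z.1 := hy
  have hker : mapC X.g (i + 1) (dLC 𝒰 X.X₂ i y) = 0 := by
    apply Subtype.ext
    funext g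
    have h1 := congrFun (dF_comp_hom X.g i y.1) g
    have h2 : (fun g => X.g.hom (y.1 g)) = z.1.1 := congrArg Subtype.val hy'
    have hz0 : dF X.X₃ i z.1.1 = 0 := (mem_cocyclesLC_iff 𝒰 X.X₃ z.1).1 z.2
    rw [h2, hz0] at h1
    exact h1.symm
  obtain ⟨(x : cochains 𝒰 X.X₁ (i + 1)), hx⟩ :=
    (ShortComplex.moduleCat_exact_iff _).1 (hSi (i + 1)).exact (dLC 𝒰 X.X₂ i y) hker
  exact ⟨y, x, hy', hx⟩

end deltaLC

/-! ### `lcδ` and cup products -/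

section left

variable [𝒰.IsFin] {X Y : ShortComplex (Rep.{u} k G)} (hX : X.ShortExact) (hY : Y.ShortExact)
  (hsmX : IsSmooth 𝒰 X.X₂) (hsmY : IsSmooth 𝒰 Y.X₂) {B : Rep.{u} k G}
  (φ₁ : Pairing X.X₁ B Y.X₁) (φ₂ : Pairing X.X₂ B Y.X₂) (φ₃ : Pairing X.X₃ B Y.X₃)

/-- `lcδ (x'' ∪ y) = lcδ x'' ∪ y`. -/
theorem lcδ_cupLC_left
    (h12 : ∀ a b, Y.f.hom (φ₁.toLin a b) = φ₂.toLin (X.f.hom a) b)
    (h23 : ∀ a b, Y.g.hom (φ₂.toLin a b) = φ₃.toLin (X.g.hom a) b)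
    {p q n : ℕ} (h : p + q = n) (x : LC.H 𝒰 X.X₃ p) (y : LC.H 𝒰 B q) :
    lcδ hY hsmY n (n + 1) rfl (cupLC 𝒰 φ₃ h x y) =
      cupLC 𝒰 φ₁ (show (p + 1) + q = n + 1 by omega) (lcδ hX hsmX p (p + 1) rfl x) y := by
  induction x using H_induction_on with
  | h z =>
  induction y using H_induction_on with
  | h b =>
  obtain ⟨a, a', ha, ha'⟩ := exists_lifts_LC hX hsmX p z
  rw [lcδ_Hπ hX hsmX p z a ha a' ha', cupLC_Hπ, cupLC_Hπ]
  have h₁ : (p + 1) + q = n + 1 := by omega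
  have hb : dLC 𝒰 B q b.1 = 0 := b.2
  refine lcδ_Hπ hY hsmY n (cupLCZ 𝒰 φ₃ h z b) (cupLCCochain 𝒰 φ₂ h a b.1) ?_
    (cupLCCochain 𝒰 φ₁ h₁ a' b.1) ?_
  · apply Subtype.ext
    funext g
    have ha1 : X.g.hom (a.1 (tupleFst h g)) = z.1.1 (tupleFst h g) :=
      congrFun (congrArg Subtype.val ha) _
    change Y.g.hom (cupFun φ₂ h a.1 b.1.1 g) = cupFun φ₃ h z.1.1 b.1.1 g
    rw [cupFun_apply, cupFun_apply, h23, ha1]
  · rw [dLC_cupLCCochain, hb, map_zero, smul_zero, add_zero, ← ha']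
    apply Subtype.ext
    funext g
    change Y.f.hom (cupFun φ₁ h₁ a'.1 b.1.1 g) = cupFun φ₂ h₁ (fun g => X.f.hom (a'.1 g)) b.1.1 g
    rw [cupFun_apply, cupFun_apply, h12]

end left

section right

variable [𝒰.IsFin] {X Y : ShortComplex (Rep.{u} k G)} (hX : X.ShortExact) (hY : Y.ShortExact)
  (hsmX : IsSmooth 𝒰 X.X₂) (hsmY : IsSmooth 𝒰 Y.X₂) {A : Rep.{u} k G}
  (ψ₁ : Pairing A X.X₁ Y.X₁) (ψ₂ : Pairing A X.X₂ Y.X₂) (ψ₃ : Pairing A X.X₃ Y.X₃)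

/-- `lcδ (x ∪ y'') = (-1)ᵖ • (x ∪ lcδ y'')`. -/
theorem lcδ_cupLC_right
    (h12 : ∀ a b, Y.f.hom (ψ₁.toLin a b) = ψ₂.toLin a (X.f.hom b))
    (h23 : ∀ a b, Y.g.hom (ψ₂.toLin a b) = ψ₃.toLin a (X.g.hom b))
    {p q n : ℕ} (h : p + q = n) (x : LC.H 𝒰 A p) (y : LC.H 𝒰 X.X₃ q) :
    lcδ hY hsmY n (n + 1) rfl (cupLC 𝒰 ψ₃ h x y) =
      (-1 : k) ^ p •
        cupLC 𝒰 ψ₁ (show p + (q + 1) = n + 1 by omega) x (lcδ hX hsmX q (q + 1) rfl y) := by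
  induction x using H_induction_on with
  | h a =>
  induction y using H_induction_on with
  | h z =>
  obtain ⟨b, b', hb, hb'⟩ := exists_lifts_LC hX hsmX q z
  rw [lcδ_Hπ hX hsmX q z b hb b' hb', cupLC_Hπ, cupLC_Hπ, ← map_smul]
  have h₂ : p + (q + 1) = n + 1 := by omega
  have ha : dLC 𝒰 A p a.1 = 0 := a.2
  have key := lcδ_Hπ hY hsmY n (cupLCZ 𝒰 ψ₃ h a z) (cupLCCochain 𝒰 ψ₂ h a.1 b) ?_
    ((-1 : k) ^ p • cupLCCochain 𝒰 ψ₁ h₂ a.1 b') ?_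
  · rw [key]
    congr 1
  · apply Subtype.ext
    funext g
    have hb1 : X.g.hom (b.1 (tupleSnd h g)) = z.1.1 (tupleSnd h g) :=
      congrFun (congrArg Subtype.val hb) _
    change Y.g.hom (cupFun ψ₂ h a.1.1 b.1 g) = cupFun ψ₃ h a.1.1 z.1.1 g
    rw [cupFun_apply, cupFun_apply, h23, Rep.hom_comm_apply X.g, hb1]
  · rw [dLC_cupLCCochain, ha, map_zero, LinearMap.zero_apply, zero_add, ← hb', map_smul]
    congr 1
    apply Subtype.ext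
    funext g
    change Y.f.hom (cupFun ψ₁ h₂ a.1.1 b'.1 g) =
      cupFun ψ₂ h₂ a.1.1 (fun g => X.f.hom (b'.1 g)) g
    rw [cupFun_apply, cupFun_apply, h12, Rep.hom_comm_apply X.f]

end right

end Fermat.Agent.CFT.A3
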