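/-
PROJECT C (S55), Layer A, slice A3a' (helper23): constructors for equivariant pairings
(`Fermat.Agent.CFT.Cup.Pairing`, helper26), Mathlib-only.

* `Pairing.ofTensorHom (f : A ⊗ B ⟶ C)`, `Pairing.tensor A B : Pairing A B (A ⊗ B)`;
* `Pairing.eval M C : Pairing ((Rep.ihom M).obj C) M C`,  `(f, m) ↦ f m`;
* `Pairing.flip`, `Pairing.comp` (pre/post-composition with morphisms)
  (`Pairing.res` = restriction along a group homomorphism is in `Cup/Functorial.lean`);
* `Pairing.smulLeft A : Pairing (trivial k) A A`, `Pairing.smulRight A : Pairing A (trivial k) A`.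
-/
import Fermat.Agent.CFT.Cup.Cochain

noncomputable section

universe u

namespace Fermat.Agent.CFT.Cup

open CategoryTheory MonoidalCategory

namespace Pairing

variable {k G : Type u} [CommRing k] [Group G]

section basic

variable {A B C : Rep.{u} k G}

@[ext] lemma ext {φ ψ : Pairing A B C} (h : ∀ a b, φ.toLin a b = ψ.toLin a b) : φ = ψ := by
  cases φ; cases ψ
  congr
  exact LinearMap.ext fun a => LinearMap.ext fun b => h a b

/-- Swap the two arguments of a pairing. -/
def flip (φ : Pairing A B C) : Pairing B A C where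
  toLin := φ.toLin.flip
  map_ρ g b a := φ.map_ρ g a b

@[simp] lemma flip_toLin_apply (φ : Pairing A B C) (b : B.V) (a : A.V) :
    φ.flip.toLin b a = φ.toLin a b := rfl

/-- Pre- and post-compose a pairing with morphisms of representations. -/
def comp {A' B' C' : Rep.{u} k G} (φ : Pairing A B C) (α : A' ⟶ A) (β : B' ⟶ B) (γ : C ⟶ C') :
    Pairing A' B' C' where
  toLin := (φ.toLin.compl₁₂ α.hom.toLinearMap β.hom.toLinearMap).compr₂ γ.hom.toLinearMap
  map_ρ g a b := by
    simp only [LinearMap.compr₂_apply, LinearMap.compl₁₂_apply,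
      Representation.IntertwiningMap.toLinearMap_apply]
    rw [Rep.hom_comm_apply, Rep.hom_comm_apply, φ.map_ρ, Rep.hom_comm_apply]

@[simp] lemma comp_toLin_apply {A' B' C' : Rep.{u} k G} (φ : Pairing A B C) (α : A' ⟶ A)
    (β : B' ⟶ B) (γ : C ⟶ C') (a : A'.V) (b : B'.V) :
    (φ.comp α β γ).toLin a b = γ.hom (φ.toLin (α.hom a) (β.hom b)) := rfl

end basic

section tensor

variable (A B : Rep.{u} k G) {C : Rep.{u} k G}

/-- The universal pairing `A × B → A ⊗ B`. -/
def tensor : Pairing A B (A ⊗ B) where
  toLin := TensorProduct.mk k A.V B.V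
  map_ρ g a b := by simp

@[simp] lemma tensor_toLin_apply (a : A.V) (b : B.V) :
    (tensor A B).toLin a b = a ⊗ₜ[k] b := rfl

variable {A B}

/-- The pairing attached to a morphism `A ⊗ B ⟶ C`. -/
def ofTensorHom (f : A ⊗ B ⟶ C) : Pairing A B C where
  toLin := (TensorProduct.mk k A.V B.V).compr₂ f.hom.toLinearMap
  map_ρ g a b := by
    simp only [LinearMap.compr₂_apply, TensorProduct.mk_apply,
      Representation.IntertwiningMap.toLinearMap_apply]
    rw [← Rep.hom_comm_apply]
    simp

@[simp] lemma ofTensorHom_toLin_apply (f : A ⊗ B ⟶ C) (a : A.V) (b : B.V) :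
    (ofTensorHom f).toLin a b = f.hom (a ⊗ₜ[k] b) := rfl

end tensor

section eval

variable (M C : Rep.{u} k G)

/-- The evaluation pairing `Hom(M, C) × M → C`, `(f, m) ↦ f m`, where `Hom(M, C)` is the internal
hom `(Rep.ihom M).obj C` (with `(g • f) = C.ρ g ∘ f ∘ M.ρ g⁻¹`). -/
def eval : Pairing ((Rep.ihom M).obj C) M C where
  toLin := LinearMap.id (R := k) (M := M.V →ₗ[k] C.V)
  map_ρ g f m := by
    let f' : M.V →ₗ[k] C.V := f
    change (C.ρ g ∘ₗ f' ∘ₗ M.ρ g⁻¹) (M.ρ g m) = C.ρ g (f' m)
    simp only [LinearMap.coe_comp, Function.comp_apply]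
    rw [← Module.End.mul_apply, ← map_mul, inv_mul_cancel, map_one, Module.End.one_apply]

@[simp] lemma eval_toLin_apply (f : M.V →ₗ[k] C.V) (m : M.V) :
    (eval M C).toLin f m = f m := rfl

end eval

section smul

variable (A : Rep.{u} k G)

/-- Scalar multiplication as a pairing `k × A → A` (`k` the trivial representation). -/
def smulLeft : Pairing (Rep.trivial k G k) A A where
  toLin := LinearMap.lsmul k A.V
  map_ρ g r a := by simp

@[simp] lemma smulLeft_toLin_apply (r : k) (a : A.V) : (smulLeft A).toLin r a = r • a := rfl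

/-- Scalar multiplication as a pairing `A × k → A` (`k` the trivial representation). -/
def smulRight : Pairing A (Rep.trivial k G k) A := (smulLeft A).flip

@[simp] lemma smulRight_toLin_apply (a : A.V) (r : k) : (smulRight A).toLin a r = r • a := rfl

end smul

end Pairing

end Fermat.Agent.CFT.Cup
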