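/-
PROJECT C (S55), slice A3a' (ii) (helper23): LOW-DEGREE FORMULAS for helper26's cup product
`Cup.cup`, against Mathlib's `H0Iso`, `H1π`, `H2π`.

* dictionary: `ofInvariants`, `ofCocycles₁`, `ofCocycles₂`; `H0Iso_inv_eq_cls`, `H1π_eq_cls`,
  `H2π_eq_cls`;
* `applyLeft φ a : B ⟶ C`, `applyRight φ b : A ⟶ C` for invariant `a`, `b`;
* `cup_H0_left : a ∪ y = (φ a -)_* y`, `cup_H0_right : x ∪ b = (φ - b)_* x` (all degrees) and their
  `H1π`/`H2π` forms `cup_H0_H1π`, `cup_H0_H2π`, `cup_H1π_H0`, `cup_H2π_H0`;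
* `cup₁₁ φ x y : cocycles₂ C`, `(g, h) ↦ φ (x g) (g • y h)`, and
  `cup_H1π_H1π : [x] ∪ [y] = [cup₁₁ φ x y]`.
-/
import Fermat.Agent.CFT.Cup.Functorial
import Fermat.Agent.CFT.A3.Pairings

noncomputable section

universe u

namespace Fermat.Agent.CFT.A3

open CategoryTheory groupCohomology Fermat.Agent.CFT.Cup

variable {k G : Type u} [CommRing k] [Group G]

/-! ### Dictionary between `cls` and Mathlib's `H0Iso`, `H1π`, `H2π` -/

section dictionary

variable (A : Rep.{u} k G)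

/-- the `1`-cocycle in `Z A 1` attached to a Mathlib `1`-cocycle `G → A` -/
def ofCocycles₁ : cocycles₁ A →ₗ[k] Z A 1 where
  toFun x := ⟨(cochainsIso₁ A).inv x.1, mem_Z.2 (by
    change (inhomogeneousCochains.d A 1).hom ((cochainsIso₁ A).inv x.1) = 0
    rw [← LinearMap.comp_apply, ← ModuleCat.hom_comp, ← inhomogeneousCochains.d_def,
        eq_d₁₂_comp_inv, ModuleCat.hom_comp, LinearMap.comp_apply,
        show (d₁₂ A).hom x.1 = 0 from LinearMap.mem_ker.1 x.2, map_zero])⟩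
  map_add' x y := Subtype.ext (map_add _ _ _)
  map_smul' c x := Subtype.ext (map_smul _ _ _)

lemma ofCocycles₁_apply (x : cocycles₁ A) (g : Fin 1 → G) : (ofCocycles₁ A x).1 g = x (g 0) := rfl

theorem H1π_eq_cls (x : cocycles₁ A) : H1π A x = cls A 1 (ofCocycles₁ A x) := by
  rw [H1π, ModuleCat.comp_apply, ← cocyclesMk₁_eq]
  rfl

/-- the `2`-cocycle in `Z A 2` attached to a Mathlib `2`-cocycle `G × G → A` -/
def ofCocycles₂ : cocycles₂ A →ₗ[k] Z A 2 where
  toFun x := ⟨(cochainsIso₂ A).inv x.1, mem_Z.2 (by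
    change (inhomogeneousCochains.d A 2).hom ((cochainsIso₂ A).inv x.1) = 0
    rw [← LinearMap.comp_apply, ← ModuleCat.hom_comp, ← inhomogeneousCochains.d_def,
        eq_d₂₃_comp_inv, ModuleCat.hom_comp, LinearMap.comp_apply,
        show (d₂₃ A).hom x.1 = 0 from LinearMap.mem_ker.1 x.2, map_zero])⟩
  map_add' x y := Subtype.ext (map_add _ _ _)
  map_smul' c x := Subtype.ext (map_smul _ _ _)

lemma ofCocycles₂_apply (x : cocycles₂ A) (g : Fin 2 → G) :
    (ofCocycles₂ A x).1 g = x (g 0, g 1) := rfl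

theorem H2π_eq_cls (x : cocycles₂ A) : H2π A x = cls A 2 (ofCocycles₂ A x) := by
  rw [H2π, ModuleCat.comp_apply, ← cocyclesMk₂_eq]
  rfl

/-- the `0`-cocycle in `Z A 0` attached to an invariant element -/
def ofInvariants : A.ρ.invariants →ₗ[k] Z A 0 where
  toFun a := ⟨(cochainsIso₀ A).inv a.1, mem_Z.2 (by
    change (inhomogeneousCochains.d A 0).hom ((cochainsIso₀ A).inv a.1) = 0
    rw [← LinearMap.comp_apply, ← ModuleCat.hom_comp, ← inhomogeneousCochains.d_def,
        eq_d₀₁_comp_inv, ModuleCat.hom_comp, LinearMap.comp_apply]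
    have : (d₀₁ A).hom a.1 = 0 := by
      funext g
      simp only [d₀₁_hom_apply, a.2 g, sub_self]
      rfl
    rw [this, map_zero])⟩
  map_add' x y := Subtype.ext (map_add _ _ _)
  map_smul' c x := Subtype.ext (map_smul _ _ _)

lemma ofInvariants_apply (a : A.ρ.invariants) (g : Fin 0 → G) : (ofInvariants A a).1 g = a.1 := rfl

theorem H0Iso_inv_eq_cls (a : A.ρ.invariants) : (H0Iso A).inv a = cls A 0 (ofInvariants A a) := by
  have h1 : cls A 0 (ofInvariants A a) = π A 0 ((cocyclesIso₀ A).inv a) := by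
    rw [cls_apply, ← cocyclesMk₀_eq]
    rfl
  rw [h1]
  have h2 := π_comp_H0Iso_hom_apply A ((cocyclesIso₀ A).inv a)
  rw [Iso.inv_hom_id_apply] at h2
  have h3 : (H0Iso A).inv ((H0Iso A).hom (π A 0 ((cocyclesIso₀ A).inv a))) =
      π A 0 ((cocyclesIso₀ A).inv a) := Iso.hom_inv_id_apply _ _
  rw [h2] at h3
  exact h3

end dictionary

/-! ### Evaluating a pairing at an invariant element -/

section apply

variable {A B C : Rep.{u} k G} (φ : Pairing A B C)

/-- For an invariant `a`, `φ a - : B ⟶ C` is a morphism of representations. -/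
def applyLeft (a : A.ρ.invariants) : B ⟶ C :=
  Rep.ofHom ⟨φ.toLin a.1, fun g => by
    ext b
    change φ.toLin a.1 (B.ρ g b) = C.ρ g (φ.toLin a.1 b)
    rw [← φ.map_ρ, a.2 g]⟩

@[simp] lemma applyLeft_hom_apply (a : A.ρ.invariants) (b : B.V) :
    (applyLeft φ a).hom b = φ.toLin a.1 b := rfl

/-- For an invariant `b`, `φ - b : A ⟶ C` is a morphism of representations. -/
def applyRight (b : B.ρ.invariants) : A ⟶ C :=
  Rep.ofHom ⟨φ.toLin.flip b.1, fun g => by
    ext a
    change φ.toLin (A.ρ g a) b.1 = C.ρ g (φ.toLin a b.1)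
    rw [← φ.map_ρ, b.2 g]⟩

@[simp] lemma applyRight_hom_apply (b : B.ρ.invariants) (a : A.V) :
    (applyRight φ b).hom a = φ.toLin a b.1 := rfl

end apply

/-! ### Cup products with `H⁰` -/

section H0

variable {A B C : Rep.{u} k G} (φ : Pairing A B C)

lemma prodFst_zero {n : ℕ} (x : Fin n → G) : prodFst 0 (Nat.zero_le n) x = 1 := by
  simp [prodFst]

lemma tupleSnd_zero {α : Type*} {n : ℕ} (h : 0 + n = n) (x : Fin n → α) : tupleSnd h x = x := by
  funext i
  simp only [tupleSnd_apply]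
  congr 1
  ext
  simp

lemma tupleFst_zero {α : Type*} {n : ℕ} (h : n + 0 = n) (x : Fin n → α) : tupleFst h x = x := by
  funext i
  rfl

/-- `a ∪ y = (φ a -)_* y` for `a ∈ H⁰(G, A) = A^G`. -/
theorem cup_H0_left {n : ℕ} (h : 0 + n = n) (a : A.ρ.invariants) (y : groupCohomology B n) :
    cup φ h ((H0Iso A).inv a) y =
      groupCohomology.map (MonoidHom.id G) (applyLeft φ a) n y := by
  induction y using cls_induction_on with
  | h b =>
  rw [H0Iso_inv_eq_cls, cup_cls, map_cls]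
  congr 1
  apply Subtype.ext
  funext x
  rw [cupZ_coe, cupFun_apply, ofInvariants_apply, prodFst_zero, map_one, Module.End.one_apply,
    tupleSnd_zero, mapZ_apply]
  rfl

/-- `x ∪ b = (φ - b)_* x` for `b ∈ H⁰(G, B) = B^G`. -/
theorem cup_H0_right {n : ℕ} (h : n + 0 = n) (x : groupCohomology A n) (b : B.ρ.invariants) :
    cup φ h x ((H0Iso B).inv b) =
      groupCohomology.map (MonoidHom.id G) (applyRight φ b) n x := by
  induction x using cls_induction_on with
  | h a =>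
  rw [H0Iso_inv_eq_cls, cup_cls, map_cls]
  congr 1
  apply Subtype.ext
  funext x
  rw [cupZ_coe, cupFun_apply, ofInvariants_apply, b.2, tupleFst_zero, mapZ_apply]
  rfl

/-- `a ∪ [y]` for `a ∈ A^G`, `y` a `1`-cocycle, in terms of Mathlib's `H1π`. -/
theorem cup_H0_H1π (a : A.ρ.invariants) (y : cocycles₁ B) :
    cup φ (show 0 + 1 = 1 from rfl) ((H0Iso A).inv a) (H1π B y) =
      H1π C (mapCocycles₁ (MonoidHom.id G) (applyLeft φ a) y) := by
  rw [cup_H0_left]
  exact H1π_comp_map_apply (MonoidHom.id G) (applyLeft φ a) y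

/-- `a ∪ [y]` for `a ∈ A^G`, `y` a `2`-cocycle, in terms of Mathlib's `H2π`. -/
theorem cup_H0_H2π (a : A.ρ.invariants) (y : cocycles₂ B) :
    cup φ (show 0 + 2 = 2 from rfl) ((H0Iso A).inv a) (H2π B y) =
      H2π C (mapCocycles₂ (MonoidHom.id G) (applyLeft φ a) y) := by
  rw [cup_H0_left]
  exact H2π_comp_map_apply (MonoidHom.id G) (applyLeft φ a) y

/-- `[x] ∪ b` for `b ∈ B^G`, `x` a `1`-cocycle, in terms of Mathlib's `H1π`. -/
theorem cup_H1π_H0 (x : cocycles₁ A) (b : B.ρ.invariants) :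
    cup φ (show 1 + 0 = 1 from rfl) (H1π A x) ((H0Iso B).inv b) =
      H1π C (mapCocycles₁ (MonoidHom.id G) (applyRight φ b) x) := by
  rw [cup_H0_right]
  exact H1π_comp_map_apply (MonoidHom.id G) (applyRight φ b) x

/-- `[x] ∪ b` for `b ∈ B^G`, `x` a `2`-cocycle, in terms of Mathlib's `H2π`. -/
theorem cup_H2π_H0 (x : cocycles₂ A) (b : B.ρ.invariants) :
    cup φ (show 2 + 0 = 2 from rfl) (H2π A x) ((H0Iso B).inv b) =
      H2π C (mapCocycles₂ (MonoidHom.id G) (applyRight φ b) x) := by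
  rw [cup_H0_right]
  exact H2π_comp_map_apply (MonoidHom.id G) (applyRight φ b) x

end H0

/-! ### The cup product `H¹ × H¹ → H²` -/

section H1

variable {A B C : Rep.{u} k G} (φ : Pairing A B C)

/-- The `2`-cocycle `(g, h) ↦ φ (x g) (g • y h)` attached to two `1`-cocycles. -/
def cup₁₁ (x : cocycles₁ A) (y : cocycles₁ B) : cocycles₂ C :=
  ⟨fun gh => φ.toLin (x gh.1) (B.ρ gh.1 (y gh.2)), by
    rw [mem_cocycles₂_iff]
    intro g h j
    have hx := (mem_cocycles₁_iff x).1 x.2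
    have hy := (mem_cocycles₁_iff y).1 y.2
    simp only [hx g h, hy h j, map_add, LinearMap.add_apply, map_mul, Module.End.mul_apply,
      ← φ.map_ρ]
    abel⟩

@[simp] lemma cup₁₁_apply (x : cocycles₁ A) (y : cocycles₁ B) (g h : G) :
    cup₁₁ φ x y (g, h) = φ.toLin (x g) (B.ρ g (y h)) := rfl

lemma prodFst_one {n : ℕ} (hn : 1 ≤ n) (x : Fin n → G) : prodFst 1 hn x = x ⟨0, by omega⟩ := by
  have := Fin.partialProd_succ x ⟨0, by omega⟩
  simp only [Fin.succ_mk, Fin.castSucc_mk] at this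
  unfold prodFst
  simpa [Fin.partialProd_zero] using this

/-- The cup product of two classes in `H¹`, in terms of Mathlib's `H1π`, `H2π`. -/
theorem cup_H1π_H1π (x : cocycles₁ A) (y : cocycles₁ B) :
    cup φ (show 1 + 1 = 2 from rfl) (H1π A x) (H1π B y) = H2π C (cup₁₁ φ x y) := by
  rw [H1π_eq_cls, H1π_eq_cls, H2π_eq_cls, cup_cls]
  congr 1
  apply Subtype.ext
  funext g
  rw [cupZ_coe, cupFun_apply, ofCocycles₂_apply, cup₁₁_apply, ofCocycles₁_apply,
    ofCocycles₁_apply, prodFst_one]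
  rfl

end H1

end Fermat.Agent.CFT.A3
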